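/-
S33 programme, brick A3'(b) LVL (helper12): **the level-raising map on Tate modules.**

For `N ∣ M` the pull-back `π^* = levelPullback h : J₀(N)(ℚ̄) → J₀(M)(ℚ̄)` induces a `ℤ_p`-linear map
`lvlT p h : Ta_p J₀(N) → Ta_p J₀(M)` (model `ES/J/TateJZero13`), which is

* **injective** (`lvlT_injective`): `π_* π^* = deg π ≠ 0` (helper44's push-pull) and the Tate module
  is torsion-free — no hypothesis on `p` (the degree may be divisible by `p`);
* **Galois-equivariant** (`lvlT_rhoT`): `lvlT (ρ_N σ x) = ρ_M σ (lvlT x)` (`levelPullback_smul`).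

Also the coordinate-wise version `lvlTFin r` on `Fin r → Ta_p`, and the base change `T ⊗ lvlT`
over a flat `ℤ_p`-algebra `T`.
-/
import Mathlib
import Fermat.Agent.ES.J.TateJZero13
import Fermat.Agent.ES.RED.PullbackInj12
import Fermat.Agent.MAZ.K3Level44.PushPull

set_option autoImplicit false
set_option synthInstance.maxHeartbeats 400000

noncomputable section

open AlgebraicCurve ModularCurve

namespace Fermat.Agent.S33P.Lvl12

open Fermat.Agent.ES.J.TateModule13 Fermat.Agent.ES.J.TateJZero13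
  Fermat.Agent.ES.HECKE.LevelPullback12 Fermat.Agent.MAZ.K3Level44

local notation "Qb" => AlgebraicClosure ℚ

variable (p : ℕ) [hp : Fact p.Prime] {N M : ℕ} [NeZero N] [NeZero M]

/-- **The level-raising map on Tate modules**, induced by `π^* : J₀(N) → J₀(M)` (`N ∣ M`). -/
def lvlT (h : N ∣ M) : TJ p N →ₗ[ℤ_[p]] TJ p M :=
  map (levelPullback h)

variable {p}

theorem proj_lvlT (h : N ∣ M) (x : TJ p N) (k : ℕ) :
    proj k (lvlT p h x) = levelPullback h (proj k x) := rfl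

/-- The push-forward on Tate modules. -/
def pushT (p : ℕ) [Fact p.Prime] (h : N ∣ M) : TJ p M →ₗ[ℤ_[p]] TJ p N :=
  map (levelPush h)

theorem proj_pushT (h : N ∣ M) (x : TJ p M) (k : ℕ) :
    proj k (pushT p h x) = levelPush h (proj k x) := rfl

/-- **push-pull on Tate modules**: `π_* π^* = deg π`. -/
theorem pushT_lvlT (h : N ∣ M) (x : TJ p N) :
    pushT p h (lvlT p h x) = (levelDeg h : ℤ_[p]) • x := by
  ext k
  show proj k (pushT p h (lvlT p h x)) = proj k ((levelDeg h : ℤ_[p]) • x)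
  rw [proj_pushT, proj_lvlT, levelPush_levelPullback, proj_natCast_smul]

/-- **The level-raising map is injective on Tate modules.** -/
theorem lvlT_injective (h : N ∣ M) : Function.Injective (lvlT p h) := by
  rw [← LinearMap.ker_eq_bot, LinearMap.ker_eq_bot']
  intro x hx
  have h1 : (levelDeg h : ℤ_[p]) • x = 0 := by
    rw [← pushT_lvlT, hx, map_zero]
  have h2 : (levelDeg h : ℤ_[p]) ≠ 0 := by
    rw [Nat.cast_ne_zero]
    exact (levelDeg_pos h).ne'
  exact eq_zero_of_smul_eq_zero h2 h1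

/-- **The level-raising map is Galois-equivariant.** -/
theorem lvlT_rhoT (h : N ∣ M) (σ : Qb ≃ₐ[ℚ] Qb) (x : TJ p N) :
    lvlT p h (rhoT p N σ x) = rhoT p M σ (lvlT p h x) := by
  ext k
  show proj k (lvlT p h (rhoT p N σ x)) = proj k (rhoT p M σ (lvlT p h x))
  rw [proj_lvlT, proj_rhoT, proj_rhoT, proj_lvlT]
  exact Fermat.Agent.ES.RED.PullbackInj12.levelPullback_smul h σ (proj k x)

theorem lvlT_comp_rhoT (h : N ∣ M) (σ : Qb ≃ₐ[ℚ] Qb) :
    (lvlT p h).comp (rhoT p N σ) = (rhoT p M σ).comp (lvlT p h) :=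
  LinearMap.ext fun x => lvlT_rhoT h σ x

/-! ### coordinate-wise version -/

/-- `lvlT` on `r` coordinates. -/
def lvlTFin (p : ℕ) [Fact p.Prime] (h : N ∣ M) (r : ℕ) :
    (Fin r → TJ p N) →ₗ[ℤ_[p]] (Fin r → TJ p M) :=
  LinearMap.pi fun i => (lvlT p h).comp (LinearMap.proj i)

@[simp] theorem lvlTFin_apply (h : N ∣ M) (r : ℕ) (x : Fin r → TJ p N) (i : Fin r) :
    lvlTFin p h r x i = lvlT p h (x i) := rfl

theorem lvlTFin_injective (h : N ∣ M) (r : ℕ) : Function.Injective (lvlTFin p h r) := by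
  intro x y hxy
  funext i
  exact lvlT_injective h (congrFun hxy i)

/-! ### base change to a flat `ℤ_p`-algebra -/

section BaseChange

open TensorProduct

variable (p) (T : Type*) [CommRing T] [Algebra ℤ_[p] T]

/-- `T ⊗ lvlT : T ⊗ Ta_p J₀(N) → T ⊗ Ta_p J₀(M)`. -/
def lvlTT (h : N ∣ M) : T ⊗[ℤ_[p]] TJ p N →ₗ[T] T ⊗[ℤ_[p]] TJ p M :=
  (lvlT p h).baseChange T

theorem lvlTT_tmul (h : N ∣ M) (t : T) (x : TJ p N) :
    lvlTT p T h (t ⊗ₜ[ℤ_[p]] x) = t ⊗ₜ[ℤ_[p]] lvlT p h x := rfl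

/-- `T ⊗ lvlT` is injective when `T` is flat over `ℤ_p`. -/
theorem lvlTT_injective [Module.Flat ℤ_[p] T] (h : N ∣ M) :
    Function.Injective (lvlTT p T h) :=
  Module.Flat.lTensor_preserves_injective_linearMap (lvlT p h) (lvlT_injective h)

/-- `T ⊗ lvlT` intertwines the base-changed Galois actions. -/
theorem lvlTT_baseChange_rhoT (h : N ∣ M) (σ : Qb ≃ₐ[ℚ] Qb) (z : T ⊗[ℤ_[p]] TJ p N) :
    lvlTT p T h ((rhoT p N σ).baseChange T z) =
      (rhoT p M σ).baseChange T (lvlTT p T h z) := by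
  induction z using TensorProduct.induction_on with
  | zero => simp
  | tmul t x =>
    simp only [lvlTT, LinearMap.baseChange_tmul]
    rw [lvlT_rhoT]
  | add a b ha hb => rw [map_add, map_add, ha, hb, map_add, map_add]

/-- `T ⊗ lvlT` on `r` coordinates. -/
def lvlTTFin (h : N ∣ M) (r : ℕ) :
    (Fin r → T ⊗[ℤ_[p]] TJ p N) →ₗ[T] (Fin r → T ⊗[ℤ_[p]] TJ p M) :=
  LinearMap.pi fun i => (lvlTT p T h).comp (LinearMap.proj i)

@[simp] theorem lvlTTFin_apply (h : N ∣ M) (r : ℕ) (x : Fin r → T ⊗[ℤ_[p]] TJ p N) (i : Fin r) :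
    lvlTTFin p T h r x i = lvlTT p T h (x i) := rfl

theorem lvlTTFin_injective [Module.Flat ℤ_[p] T] (h : N ∣ M) (r : ℕ) :
    Function.Injective (lvlTTFin p T h r) := by
  intro x y hxy
  funext i
  exact lvlTT_injective p T h (congrFun hxy i)

/-- **Raising the level of an embedding** `Ψ : V ↪ (T ⊗ Ta_p J₀(N))^r` (helper83's
`exists_tate_embedding_T`) to level `M`, `N ∣ M`: still `T`-linear, injective and equivariant. -/
theorem exists_embedding_raise [Module.Flat ℤ_[p] T] (h : N ∣ M) {V : Type*} [AddCommGroup V]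
    [Module T V] (ρV : (Qb ≃ₐ[ℚ] Qb) → V → V) {r : ℕ}
    (Ψ : V →ₗ[T] (Fin r → T ⊗[ℤ_[p]] TJ p N)) (hinj : Function.Injective Ψ)
    (hequiv : ∀ g v i, Ψ (ρV g v) i = (rhoT p N g).baseChange T (Ψ v i)) :
    ∃ Ψ' : V →ₗ[T] (Fin r → T ⊗[ℤ_[p]] TJ p M), Function.Injective Ψ' ∧
      (∀ v i, Ψ' v i = lvlTT p T h (Ψ v i)) ∧
      ∀ g v i, Ψ' (ρV g v) i = (rhoT p M g).baseChange T (Ψ' v i) := by
  refine ⟨(lvlTTFin p T h r).comp Ψ, (lvlTTFin_injective p T h r).comp hinj, fun v i => rfl,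
    fun g v i => ?_⟩
  show lvlTT p T h (Ψ (ρV g v) i) = (rhoT p M g).baseChange T (lvlTT p T h (Ψ v i))
  rw [hequiv, lvlTT_baseChange_rhoT]

end BaseChange

/-! ### the level `N' = lcm(4, N)`-style raise used by S33 -/

/-- The level used by S33: `N` itself if `4 ∣ N`, else `4 * N`. -/
def raiseLevel (N : ℕ) : ℕ := if 4 ∣ N then N else 4 * N

theorem dvd_raiseLevel (N : ℕ) : N ∣ raiseLevel N := by
  unfold raiseLevel
  split_ifs
  · exact dvd_rfl
  · exact Dvd.intro_left 4 rfl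

theorem four_dvd_raiseLevel (N : ℕ) : 4 ∣ raiseLevel N := by
  unfold raiseLevel
  split_ifs with h
  · exact h
  · exact Dvd.intro _ rfl

instance neZero_raiseLevel (N : ℕ) [NeZero N] : NeZero (raiseLevel N) := by
  refine ⟨?_⟩
  unfold raiseLevel
  split_ifs
  · exact NeZero.ne N
  · exact Nat.mul_ne_zero (by norm_num) (NeZero.ne N)

/-- `p ∣ N`, `p² ∤ N`, `p` odd ⇒ the same for `raiseLevel N`. -/
theorem raiseLevel_prime_dvd {q N : ℕ} (hq : q.Prime) (hq2 : q ≠ 2) (hN : q ∣ N ∧ ¬ q ^ 2 ∣ N) :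
    q ∣ raiseLevel N ∧ ¬ q ^ 2 ∣ raiseLevel N := by
  refine ⟨hN.1.trans (dvd_raiseLevel N), ?_⟩
  unfold raiseLevel
  split_ifs
  · exact hN.2
  · intro hdvd
    apply hN.2
    have hcop : Nat.Coprime (q ^ 2) 4 := by
      have h4 : (4 : ℕ) = 2 ^ 2 := by norm_num
      rw [h4]
      exact Nat.Coprime.pow 2 2 ((Nat.coprime_primes hq Nat.prime_two).mpr hq2)
    exact hcop.dvd_of_dvd_mul_left hdvd

end Fermat.Agent.S33P.Lvl12
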